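import Fermat.Agent.MazLQ.KDefs

/-!
# BLOCK LQ-K1: the norm of `1 + a h` along the Hecke correspondence
-/

set_option autoImplicit false
set_option maxHeartbeats 1000000

noncomputable section

open AlgebraicCurve ModularCurve IntermediateField HahnSeries

namespace Fermat.Agent.MazK1

open Fermat.Agent.FunField Fermat.Agent.ModDeg Fermat.Agent.ModPoly Fermat.Agent.Igusa
  Fermat.Agent.Deuring Fermat.Agent.HeckeRed Fermat.Agent.MazLQ

/-- expansion of a product -/
theorem prod_one_add {R : Type*} [CommRing R] (S : Subring R) {ι : Type*} (s : Finset ι)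
    {a : R} (ha : a ∈ S) (c : ι → R) (hc : ∀ i ∈ s, c i ∈ S) :
    ∃ r ∈ S, ∏ i ∈ s, (1 + a * c i) = 1 + a * ∑ i ∈ s, c i + a ^ 2 * r := by
  classical
  induction s using Finset.induction_on with
  | empty => exact ⟨0, S.zero_mem, by simp⟩
  | insert j s hj ih =>
    obtain ⟨r, hr, h⟩ := ih (fun i hi => hc i (Finset.mem_insert_of_mem hi))
    have hcj := hc j (Finset.mem_insert_self _ _)
    have hsum : ∑ i ∈ s, c i ∈ S :=
      S.sum_mem fun i hi => hc i (Finset.mem_insert_of_mem hi)
    refine ⟨r + c j * ∑ i ∈ s, c i + a * (c j * r), ?_, ?_⟩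
    · exact S.add_mem (S.add_mem hr (S.mul_mem hcj hsum)) (S.mul_mem ha (S.mul_mem hcj hr))
    · rw [Finset.prod_insert hj, Finset.sum_insert hj, h]
      ring

section QPart

variable {R : Type*} [CommRing R]

/-- the part of a Laurent series with exponents divisible by `q` -/
def qPart (q : ℕ) (F : LaurentSeries R) : LaurentSeries R where
  coeff n := if (q : ℤ) ∣ n then F.coeff n else 0
  isPWO_support' := F.isPWO_support.mono (by
    intro n hn
    simp only [Function.mem_support, HahnSeries.mem_support] at hn ⊢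
    intro h
    apply hn
    rw [h, ite_self])

theorem qPart_coeff (q : ℕ) (F : LaurentSeries R) (n : ℤ) :
    (qPart q F).coeff n = if (q : ℤ) ∣ n then F.coeff n else 0 := rfl

theorem coeff_sum {ι : Type*} (s : Finset ι) (F : ι → LaurentSeries R) (n : ℤ) :
    (∑ i ∈ s, F i).coeff n = ∑ i ∈ s, (F i).coeff n :=
  map_sum (⟨⟨fun G : LaurentSeries R => G.coeff n, rfl⟩, fun _ _ => rfl⟩ :
    LaurentSeries R →+ R) F s

theorem natCast_mul_coeff (q : ℕ) (F : LaurentSeries R) (n : ℤ) :
    ((q : LaurentSeries R) * F).coeff n = (q : R) * F.coeff n := by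
  rw [← nsmul_eq_mul, ← nsmul_eq_mul]
  exact map_nsmul (⟨⟨fun G : LaurentSeries R => G.coeff n, rfl⟩, fun _ _ => rfl⟩ :
    LaurentSeries R →+ R) q F

/-- The trace of a Laurent series. -/
theorem sum_twist [IsDomain R] {q : ℕ} (hq : q ≠ 0) {u : Rˣ} (hu : IsPrimitiveRoot u q)
    (F : LaurentSeries R) :
    ∑ b ∈ Finset.range q, twist (u ^ b) F = (q : LaurentSeries R) * qPart q F := by
  ext n
  rw [coeff_sum, natCast_mul_coeff, qPart_coeff]
  have h1 : ∀ b ∈ Finset.range q, (twist (u ^ b) F).coeff n =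
      (((u ^ n : Rˣ) : R)) ^ b * F.coeff n := by
    intro b _
    rw [twist_coeff, ← zpow_natCast, ← zpow_mul, mul_comm (b : ℤ) n, zpow_mul, zpow_natCast,
      Units.val_pow_eq_pow_val]
  rw [Finset.sum_congr rfl h1, ← Finset.sum_mul]
  by_cases hn : (q : ℤ) ∣ n
  · have h2 : u ^ n = 1 := (hu.zpow_eq_one_iff_dvd n).2 hn
    rw [if_pos hn, h2]
    simp
  · have h2 : u ^ n ≠ 1 := fun h => hn ((hu.zpow_eq_one_iff_dvd n).1 h)
    have h3 : ((u ^ n : Rˣ) : R) - 1 ≠ 0 := by
      intro h
      apply h2
      apply Units.ext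
      rw [Units.val_one]
      exact sub_eq_zero.1 h
    have h4 : (((u ^ n : Rˣ) : R) - 1) * ∑ b ∈ Finset.range q, ((u ^ n : Rˣ) : R) ^ b = 0 := by
      rw [mul_geom_sum, ← Units.val_pow_eq_pow_val, ← zpow_natCast, ← zpow_mul, mul_comm n,
        zpow_mul, zpow_natCast, hu.pow_eq_one, one_zpow, Units.val_one, sub_self]
    rw [if_neg hn, (mul_eq_zero.1 h4).resolve_left h3, zero_mul, mul_zero]

theorem twist_prod {q : ℕ} {u : Rˣ} (hu : u ^ q = 1) (F : LaurentSeries R) (c : ℕ) :
    twist (u ^ c) (∏ b ∈ Finset.range q, twist (u ^ b) F) =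
      ∏ b ∈ Finset.range q, twist (u ^ b) F := by
  have key : twist u (∏ b ∈ Finset.range q, twist (u ^ b) F) =
      ∏ b ∈ Finset.range q, twist (u ^ b) F := by
    rw [map_prod]
    have h1 : ∀ b ∈ Finset.range q, twist u (twist (u ^ b) F) = twist (u ^ (b + 1)) F := by
      intro b _
      rw [twist_twist, pow_succ']
    rw [Finset.prod_congr rfl h1]
    rcases q with _ | q
    · rfl
    · rw [Finset.prod_range_succ, hu, Finset.prod_range_succ' (fun b => twist (u ^ b) F) q,
        pow_zero]
  induction c with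
  | zero => rw [pow_zero, twist_one]
  | succ c ih => rw [pow_succ, ← twist_twist, key, ih]

end QPart

section Trace

variable {L : Type*} [Field L] {A : ValuationSubring L} {κ : Type*} [Field κ] {π : A →+* κ}

/-- The trace of an element of the Gauss ring is divisible by `q`. -/
theorem exists_trace {q : ℕ} (hq : q ≠ 0) {v : Lˣ} (hv : IsPrimitiveRoot v q) {u : Aˣ}
    (hu : Units.map (A.subtype : A →* L) u = v) {x : LaurentSeries L}
    (hx : x ∈ gaussRing A π) :
    ∃ z ∈ gaussRing A π, ∑ b ∈ Finset.range q, twist (v ^ b) x = (q : LaurentSeries L) * z := by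
  have hupow : ∀ n : ℕ, u ^ n = 1 ↔ v ^ n = 1 := by
    intro n
    rw [← hu, ← map_pow]
    constructor
    · intro h
      rw [h, map_one]
    · intro h
      apply Units.ext
      apply Subtype.ext
      exact congrArg Units.val h
  have hu' : IsPrimitiveRoot u q :=
    ⟨(hupow q).2 hv.pow_eq_one, fun n hn => hv.dvd_of_pow_eq_one n ((hupow n).1 hn)⟩
  obtain ⟨P, Q, hQ, hPQ⟩ := mem_gaussRing_iff.1 hx
  set Q' : LaurentSeries A := ∏ b ∈ Finset.range q, twist (u ^ b) Q with hQ'
  obtain ⟨q', rfl⟩ : ∃ q', q = q' + 1 := ⟨q - 1, by omega⟩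
  set P' : LaurentSeries A := P * ∏ b ∈ Finset.range q', twist (u ^ (b + 1)) Q with hP'
  have hPQ' : x * coeffMap A.subtype Q' = coeffMap A.subtype P' := by
    have h1 : Q' = Q * ∏ b ∈ Finset.range q', twist (u ^ (b + 1)) Q := by
      rw [hQ', Finset.prod_range_succ' (fun b => twist (u ^ b) Q) q', pow_zero, twist_one,
        mul_comm]
    rw [h1, hP', map_mul, map_mul, ← mul_assoc, hPQ]
  have hQ'π : coeffMap π Q' ≠ 0 := by
    rw [hQ', map_prod]
    refine Finset.prod_ne_zero_iff.2 fun b _ => ?_
    rw [coeffMap_twist]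
    intro h
    exact hQ (twist_injective _ (h.trans (map_zero _).symm))
  have hQ'L : coeffMap A.subtype Q' ≠ 0 := by
    intro h
    apply hQ'π
    have h1 : Q' = 0 := coeffMap_injective (f := A.subtype) Subtype.val_injective
      (h.trans (map_zero _).symm)
    rw [h1, map_zero]
  have htw : ∀ (b : ℕ) (F : LaurentSeries A), twist (v ^ b) (coeffMap A.subtype F) =
      coeffMap A.subtype (twist (u ^ b) F) := by
    intro b F
    rw [coeffMap_twist, map_pow]
    congr 3
    exact hu.symm
  have hcoef : coeffMap A.subtype (((q' + 1 : ℕ) : LaurentSeries A)) =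
      ((q' + 1 : ℕ) : LaurentSeries L) := map_natCast _ _
  have hsum : (∑ b ∈ Finset.range (q' + 1), twist (v ^ b) x) * coeffMap A.subtype Q' =
      ((q' + 1 : ℕ) : LaurentSeries L) * coeffMap A.subtype (qPart (q' + 1) P') := by
    rw [← hcoef, ← map_mul, ← sum_twist (by omega) hu', map_sum, Finset.sum_mul]
    refine Finset.sum_congr rfl fun b _ => ?_
    rw [← htw, ← hPQ', map_mul, htw b Q', hQ', twist_prod hu'.pow_eq_one]
  refine ⟨coeffMap A.subtype (qPart (q' + 1) P') / coeffMap A.subtype Q',
    mem_gaussRing_iff.2 ⟨_, _, hQ'π, div_mul_cancel₀ _ hQ'L⟩, ?_⟩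
  rw [mul_div_assoc', eq_div_iff hQ'L, hsum]

end Trace

section Main

variable {L : Type*} [Field L] [Algebra ℚ L] [IsAlgClosed L]

/-- **LQ-K1**, general form. -/
theorem k1_general (A : ValuationSubring L) (κ : Type*) [Field κ] (π : A →+* κ) (q N : ℕ)
    [hq : Fact q.Prime] [NeZero N] [CharP κ q] (hqN : ¬ q ∣ N)
    (h : laurentBaseChange L (modularFunctionFieldFull N))
    (hh : (h : LaurentSeries L) ∈ gaussRing A π) (a : L) (ha : a ∈ A) (ha0 : a ≠ 0) :
    ∃ w : laurentBaseChange L (modularFunctionFieldFull N),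
      (w : LaurentSeries L) ∈ gaussRing A π ∧
      normAlong (heckeAlphaBar L N q) (heckeBetaBar L N q
        (1 + algebraMap L _ a * h)) = 1 + algebraMap L _ a * w ∧
      ∃ u ∈ gaussRing A π, ∃ v ∈ gaussRing A π,
        qExpand L q (w : LaurentSeries L) = qExpand L q (qExpand L q (h : LaurentSeries L)) +
          algebraMap L _ (q : L) * u + algebraMap L _ a * v := by
  have : CharZero L := algebraRat.charZero L
  obtain ⟨v, hv⟩ := exists_primitiveRoot_unit (K := L) hq.out
    (by exact_mod_cast hq.out.ne_zero)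
  obtain ⟨u, hu, -⟩ := exists_unit_lift (A := A) (π := π) hv
  set x : LaurentSeries L := (h : LaurentSeries L) with hx
  set aL : LaurentSeries L := algebraMap L (LaurentSeries L) a with haL
  have haG : aL ∈ gaussRing A π := algebraMap_mem_gaussRing A π ⟨a, ha⟩
  have haL0 : aL ≠ 0 := by
    rw [haL]
    exact (map_ne_zero (algebraMap L (LaurentSeries L))).2 ha0
  set T := normAlong (heckeAlphaBar L N q) (heckeBetaBar L N q
        (1 + algebraMap L _ a * h)) with hT
  have hprod := qExpand_normAlong (HeckeRed.laurentBaseChange_full L N)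
    (HeckeRed.laurentBaseChange_full L (N * q))
    (heckeAlphaBar L N q) (heckeBetaBar L N q) (coe_heckeAlphaBar N q) (coe_heckeBetaBar N q)
    hqN hv (1 + algebraMap L _ a * h)
  rw [← hT] at hprod
  -- the conjugates
  have hc : ∀ i, conjL q v i x ∈ gaussRing A π := by
    rintro (_ | b)
    · exact (GaussEnd.qExp A π q).mem ((GaussEnd.qExp A π q).mem hh)
    · have e1 : conjL q v (some b) x = (GaussEnd.twi π (u ^ (b : ℕ))).onL x := by
        show twist (v ^ (b : ℕ)) x = twist (Units.map (A.subtype : A →* L) (u ^ (b : ℕ))) x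
        rw [map_pow, hu]
      rw [e1]
      exact (GaussEnd.twi π (u ^ (b : ℕ))).mem hh
  have hfac : ∀ i, conjL q v i ((1 + algebraMap L _ a * h :
      laurentBaseChange L (modularFunctionFieldFull N)) : LaurentSeries L) =
      1 + aL * conjL q v i x := by
    intro i
    have e1 : ((1 + algebraMap L _ a * h :
      laurentBaseChange L (modularFunctionFieldFull N)) : LaurentSeries L) = 1 + aL * x := rfl
    have e2 : conjL q v i aL = aL := by
      rcases i with _ | b
      · show qExpand L q (qExpand L q aL) = aL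
        rw [haL, algebraMap_eq_single, qExpand_single, qExpand_single, mul_zero, mul_zero]
      · show twist (v ^ (b : ℕ)) aL = aL
        rw [haL, twist_algebraMap]
    rw [e1, map_add, map_one, map_mul, e2]
  rw [Finset.prod_congr rfl fun i _ => hfac i] at hprod
  obtain ⟨r, hr, hexp⟩ := prod_one_add (gaussRing A π) (Finset.univ : Finset (Option (Fin q)))
    haG (fun i => conjL q v i x) (fun i _ => hc i)
  rw [hexp] at hprod
  -- the trace
  obtain ⟨z, hz, htr⟩ := exists_trace (π := π) hq.out.ne_zero hv hu hh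
  have hsum : ∑ i : Option (Fin q), conjL q v i x = qExpand L q (qExpand L q x) +
      (q : LaurentSeries L) * z := by
    rw [Fintype.sum_option, ← htr, Finset.sum_range]
    rfl
  rw [hsum] at hprod
  -- the function
  set w : laurentBaseChange L (modularFunctionFieldFull N) := (algebraMap L _ a)⁻¹ * (T - 1)
    with hw
  have ha0' : algebraMap L (laurentBaseChange L (modularFunctionFieldFull N)) a ≠ 0 :=
    (map_ne_zero (algebraMap L _)).2 ha0
  have hTw : T = 1 + algebraMap L _ a * w := by
    rw [hw, mul_inv_cancel_left₀ ha0']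
    ring
  have hTL : (T : LaurentSeries L) = 1 + aL * (w : LaurentSeries L) := congrArg Subtype.val hTw
  have hqa : qExpand L q aL = aL := by
    rw [haL, algebraMap_eq_single, qExpand_single, mul_zero]
  rw [hTL, map_add, map_one, map_mul, hqa] at hprod
  have hres : qExpand L q (w : LaurentSeries L) = qExpand L q (qExpand L q x) +
      (q : LaurentSeries L) * z + aL * r := by
    apply mul_left_cancel₀ haL0
    linear_combination hprod
  have hqL : algebraMap L (LaurentSeries L) (q : L) = (q : LaurentSeries L) := map_natCast _ _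
  refine ⟨w, ?_, hTw, z, hz, r, hr, ?_⟩
  · rw [← (GaussEnd.qExp A π q).mem_iff (isTameField_bar N) w.2]
    show qExpand L q (w : LaurentSeries L) ∈ gaussRing A π
    rw [hres]
    refine add_mem (add_mem (hc none) (mul_mem (natCast_mem _ q) hz)) (mul_mem haG hr)
  · rw [hres, hqL]

end Main

/-- **LQ-K1**. -/
theorem k1 : K1Statement := by
  intro A κ _ π _ _ q N _ _ _ hqN h hh a ha ha0
  exact k1_general A κ π q N hqN h hh a ha ha0

end Fermat.Agent.MazK1
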